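import Fermat.Agent.Common.EverywhereUnramified

set_option autoImplicit false

/-!
Places over the same prime have conjugate inertia groups.
-/

noncomputable section

namespace FLTAgent.Common

open scoped Pointwise

/-- the centre of a valuation subring in `ZBar` -/
def centre (V : ValuationSubring QBar) : Ideal ZBar where
  carrier := {b | (b : QBar) ∈ V.nonunits}
  add_mem' {a b} ha hb := by
    simp only [Set.mem_setOf_eq, ValuationSubring.mem_nonunits_iff] at *
    push_cast
    exact lt_of_le_of_lt (Valuation.map_add _ _ _) (max_lt ha hb)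
  zero_mem' := by simp [ValuationSubring.mem_nonunits_iff]
  smul_mem' c b hb := by
    simp only [Set.mem_setOf_eq, ValuationSubring.mem_nonunits_iff, smul_eq_mul] at *
    push_cast
    rw [map_mul]
    refine mul_lt_one_of_nonneg_of_lt_one_right ?_ zero_le hb
    have h : (c : QBar) ∈ (integralClosure (Subring.closure (∅ : Set QBar)) QBar).toSubring :=
      (IsIntegral.tower_top c.2 : IsIntegral (Subring.closure (∅ : Set QBar)) (c : QBar))
    rw [← iInf_valuationSubring_superset, Subring.mem_iInf] at h
    exact (V.valuation_le_one_iff _).mpr (h ⟨V, Set.empty_subset _⟩)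

lemma mem_centre {V : ValuationSubring QBar} {b : ZBar} :
    b ∈ centre V ↔ (b : QBar) ∈ V.nonunits := Iff.rfl

lemma centre_isPrime (V : ValuationSubring QBar) : (centre V).IsPrime := by
  refine ⟨fun h => ?_, fun {a b} hab => ?_⟩
  · have := (Ideal.eq_top_iff_one _).mp h
    simp [mem_centre, ValuationSubring.mem_nonunits_iff] at this
  · simp only [mem_centre, ValuationSubring.mem_nonunits_iff] at *
    push_cast at hab
    rw [map_mul] at hab
    by_contra hcon
    push Not at hcon
    exact absurd hab (not_lt.mpr (one_le_mul hcon.1 hcon.2))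

lemma inertia_apply_sub_mem {V : ValuationSubring QBar} {σ : GalQ}
    (hσ : σ ∈ V.inertiaSubgroupIn ℚ) {c : QBar} (hc : c ∈ V) : σ c - c ∈ V.nonunits := by
  obtain ⟨τ, hτ, rfl⟩ := hσ
  rw [SetLike.mem_coe, ValuationSubring.inertiaSubgroup, MonoidHom.mem_ker] at hτ
  have h := RingEquiv.congr_fun hτ (IsLocalRing.residue V ⟨c, hc⟩)
  have h2 : IsLocalRing.residue V (τ • ⟨c, hc⟩) = IsLocalRing.residue V ⟨c, hc⟩ := by
    rw [IsLocalRing.ResidueField.residue_smul]; exact h
  have h' := Ideal.Quotient.eq.mp h2
  rw [ValuationSubring.valuation_lt_one_iff] at h'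
  exact h'

/-- If a normal subgroup contains the inertia group of one place over `q`, it contains that of
every place over `q`. -/
theorem inertia_le_of_inertia_le {H : Subgroup GalQ} [H.Normal] {q : ℕ} (hq : q.Prime)
    {V V' : ValuationSubring QBar} (hV : V.LiesOverPrime q) (hV' : V'.LiesOverPrime q)
    (h : V.inertiaSubgroupIn ℚ ≤ H) : V'.inertiaSubgroupIn ℚ ≤ H := by
  have := isGalois_qbar
  have hp := centre_isPrime V
  have hp' := centre_isPrime V'
  have key : ∀ W : ValuationSubring QBar, W.LiesOverPrime q →
      (centre W).under ℤ = Ideal.span {(q : ℤ)} := by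
    intro W hW
    have hPp : ((centre W).under ℤ).IsPrime :=
      have := centre_isPrime W; Ideal.IsPrime.under ℤ _
    have hle : Ideal.span {(q : ℤ)} ≤ (centre W).under ℤ := by
      rw [Ideal.span_singleton_le_iff_mem, Ideal.mem_comap, mem_centre]
      simpa [ValuationSubring.LiesOverPrime] using hW
    have hmax : (Ideal.span {(q : ℤ)}).IsMaximal :=
      PrincipalIdealRing.isMaximal_of_irreducible (Nat.prime_iff_prime_int.mp hq).irreducible
    exact (hmax.eq_of_le hPp.ne_top hle).symm
  letI : TopologicalSpace ZBar := ⊥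
  haveI : DiscreteTopology ZBar := ⟨rfl⟩
  haveI : ContinuousSMul GalQ ZBar := by
    rw [continuousSMul_iff_stabilizer_isOpen]
    intro b
    have h1 := stabilizer_isOpen_of_isIntegral (K := ℚ) (L := QBar) (b : QBar)
    have : (MulAction.stabilizer GalQ b : Set GalQ)
        = (MulAction.stabilizer GalQ (b : QBar) : Set GalQ) := by
      ext g
      exact Subtype.ext_iff
    rw [this]
    exact h1
  haveI : TotallyDisconnectedSpace GalQ := by
    haveI := krullTopology_isTotallySeparated (K := ℚ) (L := QBar)
    infer_instance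
  haveI : SMulCommClass GalQ ℤ ZBar := ⟨fun g n b => smul_comm g n b⟩
  haveI : Algebra.IsInvariant ℤ ZBar GalQ := by
    refine ⟨fun b hb => ?_⟩
    obtain ⟨r, hr⟩ := (InfiniteGalois.mem_range_algebraMap_iff_fixed (k := ℚ) (b : QBar)).mpr
      (fun g => congrArg Subtype.val (hb g))
    have hint : IsIntegral ℤ r := by
      rw [← isIntegral_algebraMap_iff (FaithfulSMul.algebraMap_injective ℚ QBar)]
      rw [hr]; exact b.2
    obtain ⟨n, hn⟩ := IsIntegrallyClosed.algebraMap_eq_of_integral hint
    refine ⟨n, Subtype.ext ?_⟩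
    show algebraMap ℤ QBar n = _
    rw [IsScalarTower.algebraMap_apply ℤ ℚ QBar, hn, hr]
  obtain ⟨g, hg⟩ := Algebra.IsInvariant.exists_smul_of_under_eq_of_profinite (A := ℤ) (G := GalQ)
    (centre V) (centre V') ((key V hV).trans (key V' hV').symm)
  intro ρ hρ
  have h1 : g⁻¹ * ρ * g ∈ V.inertiaSubgroupIn ℚ := by
    refine mem_inertia_of_integral hq hV (fun b => ?_)
    have hmem : (g • b : ZBar) ∈ (centre V').comap (RingHom.id ZBar) ↔
        (g • b : ZBar) ∈ centre V' := Iff.rfl
    have h2 : ρ • (g • b) - g • b ∈ centre V' := by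
      rw [mem_centre]
      have hgb : ((g • b : ZBar) : QBar) ∈ V' := by
        have h : ((g • b : ZBar) : QBar) ∈
            (integralClosure (Subring.closure (∅ : Set QBar)) QBar).toSubring :=
          (IsIntegral.tower_top (g • b).2 :
            IsIntegral (Subring.closure (∅ : Set QBar)) ((g • b : ZBar) : QBar))
        rw [← iInf_valuationSubring_superset, Subring.mem_iInf] at h
        exact h ⟨V', Set.empty_subset _⟩
      exact inertia_apply_sub_mem hρ hgb
    rw [hg, Ideal.mem_pointwise_smul_iff_inv_smul_mem, smul_sub, inv_smul_smul, ← mul_smul,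
      ← mul_smul, mem_centre] at h2
    exact h2
  have h2 := Subgroup.Normal.conj_mem ‹H.Normal› _ (h h1) g
  simpa [mul_assoc] using h2

end FLTAgent.Common
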