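import Mathlib.NumberTheory.NumberField.ExistsRamified
import Mathlib.RingTheory.Invariant.Profinite
import Mathlib.RingTheory.Invariant.Galois
import Mathlib.RingTheory.Valuation.LocalSubring
import Mathlib.FieldTheory.Galois.Profinite
import Mathlib.FieldTheory.KrullTopology
import Mathlib.FieldTheory.IsAlgClosed.AlgebraicClosure
import Fermat.Prelude.Def_FLTPrelim_Ramification

set_option autoImplicit false

/-!
An open normal subgroup of the absolute Galois group of `ℚ` containing every inertia group is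
everything (Minkowski).
-/

noncomputable section

namespace FLTAgent.Common

open scoped Pointwise NumberField

abbrev QBar := AlgebraicClosure ℚ
abbrev GalQ := QBar ≃ₐ[ℚ] QBar
abbrev ZBar := integralClosure ℤ QBar

theorem isAlgebraic_qbar : Algebra.IsAlgebraic ℚ QBar := AlgebraicClosure.isAlgebraic ℚ

theorem isGalois_qbar : IsGalois ℚ QBar :=
  have : IsAlgClosure ℚ QBar := ⟨inferInstance, isAlgebraic_qbar⟩
  IsAlgClosure.isGalois ℚ QBar

/-- `b_j = Σ_{i ≥ j} a_i x^(i-j)` -/
def tailEval (f : Polynomial ℤ) (x : QBar) (j : ℕ) : QBar :=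
  Polynomial.aeval x (Polynomial.divX^[j] f)

lemma coeff_iterate_divX (f : Polynomial ℤ) (j k : ℕ) :
    (Polynomial.divX^[j] f).coeff k = f.coeff (j + k) := by
  induction j generalizing k with
  | zero => simp
  | succ j IH =>
    rw [Function.iterate_succ_apply', Polynomial.coeff_divX, IH]
    congr 1; omega

lemma tailEval_succ (f : Polynomial ℤ) (x : QBar) (j : ℕ) :
    tailEval f x j = x * tailEval f x (j + 1) + (f.coeff j : QBar) := by
  simp only [tailEval, Function.iterate_succ_apply']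
  conv_lhs => rw [← Polynomial.X_mul_divX_add (Polynomial.divX^[j] f)]
  simp [coeff_iterate_divX]

lemma mul_tailEval_mem_valuationSubring (f : Polynomial ℤ) {x : QBar}
    (hx : Polynomial.aeval x f = 0) (V : ValuationSubring QBar) (j : ℕ) :
    x * tailEval f x (j + 1) ∈ V := by
  have h0 : tailEval f x 0 = 0 := by simpa [tailEval] using hx
  have key : x * tailEval f x (j + 1) = tailEval f x j - (f.coeff j : QBar) := by
    rw [tailEval_succ f x j]; ring
  rw [key]
  refine sub_mem ?_ (intCast_mem _ _)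
  rcases V.mem_or_inv_mem x with h | h
  · have : ∀ p : Polynomial ℤ, Polynomial.aeval x p ∈ V := fun p => by
      induction p using Polynomial.induction_on' with
      | add p q hp hq => rw [map_add]; exact add_mem hp hq
      | monomial n a =>
        rw [Polynomial.aeval_monomial]
        exact mul_mem (by simp) (pow_mem h n)
    exact this _
  · clear key
    induction j with
    | zero => rw [h0]; exact zero_mem _
    | succ j IH =>
      rcases eq_or_ne x 0 with rfl | hx0
      · simp only [tailEval, Polynomial.aeval_def, Polynomial.eval₂_at_zero]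
        simp
      have e : tailEval f x (j + 1) = x⁻¹ * (tailEval f x j - (f.coeff j : QBar)) := by
        rw [tailEval_succ f x j]; field_simp; ring
      rw [e]
      exact mul_mem h (sub_mem IH (intCast_mem _ _))

lemma mul_tailEval_isIntegral (f : Polynomial ℤ) {x : QBar}
    (hx : Polynomial.aeval x f = 0) (j : ℕ) :
    IsIntegral ℤ (x * tailEval f x (j + 1)) := by
  have h : x * tailEval f x (j + 1) ∈
      (integralClosure (Subring.closure (∅ : Set QBar)) QBar).toSubring := by
    rw [← iInf_valuationSubring_superset, Subring.mem_iInf]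
    exact fun V => mul_tailEval_mem_valuationSubring f hx V.1 j
  have hint : IsIntegral (Subring.closure (∅ : Set QBar)) (x * tailEval f x (j + 1)) := h
  refine @isIntegral_trans ℤ (Subring.closure (∅ : Set QBar)) _ _ _ _ _ _ _ _ ?_ _ hint
  refine ⟨fun a => ?_⟩
  have ha : (a : QBar) ∈ (⊥ : Subring QBar) := Subring.closure_empty (R := QBar) ▸ a.2
  obtain ⟨n, hn⟩ := Subring.mem_bot.mp ha
  have : a = algebraMap ℤ _ n := Subtype.ext (by simp [hn])
  exact this ▸ isIntegral_algebraMap

/-- Every element of a valuation subring is a fraction of algebraic integers with denominator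
a unit of the valuation subring. -/
theorem exists_unit_denominator (V : ValuationSubring QBar) {x : QBar} (hx : x ∈ V)
    {q : ℕ} (hq : q.Prime) (hV : V.LiesOverPrime q) :
    ∃ s : ZBar, (s : QBar) ∉ V.nonunits ∧ IsIntegral ℤ ((s : QBar) * x) := by
  classical
  have := isAlgebraic_qbar
  obtain ⟨f₀, hf₀, hf₀x⟩ : ∃ f : Polynomial ℤ, f ≠ 0 ∧ Polynomial.aeval x f = 0 := by
    obtain ⟨f, hf⟩ := (IsFractionRing.isAlgebraic_iff ℤ ℚ QBar (x := x)).mpr
      (Algebra.IsAlgebraic.isAlgebraic x)
    exact ⟨f, hf.1, hf.2⟩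
  set f := f₀.primPart with hf
  have hfx : Polynomial.aeval x f = 0 := Polynomial.aeval_primPart_eq_zero hf₀ hf₀x
  have hprim : f.IsPrimitive := Polynomial.isPrimitive_primPart _
  have h0 : tailEval f x 0 = 0 := by simpa [tailEval] using hfx
  have hbint : ∀ j, IsIntegral ℤ (tailEval f x j) := fun j => by
    rw [tailEval_succ f x j]
    exact (mul_tailEval_isIntegral f hfx j).add isIntegral_algebraMap
  by_contra hcon
  push Not at hcon
  have hb : ∀ j, tailEval f x j ∈ V.nonunits := by
    intro j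
    by_contra hj
    rcases Nat.eq_zero_or_pos j with rfl | hjp
    · exact hj (by rw [h0]; simp [ValuationSubring.mem_nonunits_iff])
    obtain ⟨i, rfl⟩ : ∃ i, j = i + 1 := ⟨j - 1, by omega⟩
    exact hcon ⟨_, hbint (i + 1)⟩ hj
      (by rw [mul_comm]; exact mul_tailEval_isIntegral f hfx i)
  have ha : ∀ j, (f.coeff j : QBar) ∈ V.nonunits := by
    intro j
    have e : (f.coeff j : QBar) = tailEval f x j - x * tailEval f x (j + 1) := by
      rw [tailEval_succ f x j]; ring
    rw [e, ValuationSubring.mem_nonunits_iff]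
    refine lt_of_le_of_lt (Valuation.map_sub _ _ _) (max_lt (hb j) ?_)
    rw [map_mul]
    exact mul_lt_one_of_nonneg_of_lt_one_right ((V.valuation_le_one_iff x).mpr hx) zero_le
      (hb (j + 1))
  have hdvd : ∀ j, (q : ℤ) ∣ f.coeff j := by
    intro j
    by_contra hnd
    obtain ⟨a, b, hab⟩ := (Int.isCoprime_iff_nat_coprime.mpr
      (hq.coprime_iff_not_dvd.mpr (by simpa [← Int.natCast_dvd] using hnd)) :
        IsCoprime (q : ℤ) (f.coeff j))
    have hab' : (a : QBar) * (q : QBar) + (b : QBar) * (f.coeff j : QBar) = 1 := by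
      exact_mod_cast congrArg (fun z : ℤ => (z : QBar)) hab
    have h1 : V.valuation (1 : QBar) < 1 := by
      rw [← hab']
      refine lt_of_le_of_lt (Valuation.map_add _ _ _) (max_lt ?_ ?_) <;> rw [map_mul]
      · exact mul_lt_one_of_nonneg_of_lt_one_right
          ((V.valuation_le_one_iff _).mpr (intCast_mem _ _)) zero_le hV
      · exact mul_lt_one_of_nonneg_of_lt_one_right
          ((V.valuation_le_one_iff _).mpr (intCast_mem _ _)) zero_le (ha j)
    simp at h1
  have hu : IsUnit (q : ℤ) := hprim q (Polynomial.C_dvd_iff_dvd_coeff _ _ |>.mpr hdvd)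
  rw [Int.ofNat_isUnit, Nat.isUnit_iff] at hu
  exact hq.one_lt.ne' hu

/-- An automorphism fixing a prime of `ZBar` with trivial action modulo it is in the inertia group
of every valuation subring centred at that prime. -/
theorem mem_inertia_of_integral {V : ValuationSubring QBar} {q : ℕ} (hq : q.Prime)
    (hV : V.LiesOverPrime q) {σ : GalQ}
    (hσ : ∀ b : ZBar, σ (b : QBar) - b ∈ V.nonunits) : σ ∈ V.inertiaSubgroupIn ℚ := by
  have hint : ∀ b : ZBar, (b : QBar) ∈ V := fun b => by
    have h : (b : QBar) ∈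
        (integralClosure (Subring.closure (∅ : Set QBar)) QBar).toSubring :=
      (IsIntegral.tower_top b.2 : IsIntegral (Subring.closure (∅ : Set QBar)) (b : QBar))
    rw [← iInf_valuationSubring_superset, Subring.mem_iInf] at h
    exact h ⟨V, Set.empty_subset _⟩
  have hunit : ∀ s : ZBar, (s : QBar) ∉ V.nonunits → σ (s : QBar) ∉ V.nonunits := by
    intro s hs hs'
    apply hs
    rw [ValuationSubring.mem_nonunits_iff] at hs' ⊢
    rw [show (s : QBar) = σ s - (σ s - s) by ring]
    exact lt_of_le_of_lt (Valuation.map_sub _ _ _) (max_lt hs' (hσ s))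
  have hres : ∀ x ∈ V, σ x ∈ V ∧ σ x - x ∈ V.nonunits := by
    intro x hx
    obtain ⟨s, hs, hsx⟩ := exists_unit_denominator V hx hq hV
    have hs1 : V.valuation (s : QBar) = 1 :=
      le_antisymm ((V.valuation_le_one_iff _).mpr (hint s))
        (not_lt.mp (fun h => hs ((V.mem_nonunits_iff).mpr h)))
    have hσs1 : V.valuation (σ (s : QBar)) = 1 :=
      le_antisymm ((V.valuation_le_one_iff _).mpr
          (hint ⟨_, s.2.map (σ.toAlgHom.restrictScalars ℤ)⟩))
        (not_lt.mp (fun h => hunit s hs ((V.mem_nonunits_iff).mpr h)))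
    set b : ZBar := ⟨(s : QBar) * x, hsx⟩ with hb
    have hσb : σ (b : QBar) = σ s * σ x := by simp [hb]
    have h1 : σ x ∈ V := by
      rw [← V.valuation_le_one_iff]
      have := (V.valuation_le_one_iff _).mpr (hint ⟨_, b.2.map (σ.toAlgHom.restrictScalars ℤ)⟩)
      change V.valuation (σ (b : QBar)) ≤ 1 at this
      rwa [hσb, map_mul, hσs1, one_mul] at this
    refine ⟨h1, ?_⟩
    have e : σ (s : QBar) * (σ x - x) = (σ (b : QBar) - b) - x * (σ (s : QBar) - s) := by
      rw [hσb, hb]; ring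
    rw [ValuationSubring.mem_nonunits_iff]
    have : V.valuation (σ (s : QBar) * (σ x - x)) < 1 := by
      rw [e]
      refine lt_of_le_of_lt (Valuation.map_sub _ _ _) (max_lt (hσ b) ?_)
      rw [map_mul]
      exact mul_lt_one_of_nonneg_of_lt_one_right ((V.valuation_le_one_iff x).mpr hx) zero_le
        (hσ s)
    rwa [map_mul, hσs1, one_mul] at this
  have hσV : σ • V = V := by
    refine SetLike.ext fun x => ?_
    rw [ValuationSubring.mem_smul_pointwise_iff_exists]
    constructor
    · rintro ⟨y, hy, rfl⟩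
      exact (hres y hy).1
    · intro hx
      refine ⟨σ.symm x, ?_, σ.apply_symm_apply x⟩
      by_contra hn
      have hne : σ.symm x ≠ 0 := fun e => hn (e ▸ zero_mem _)
      have hinv : (σ.symm x)⁻¹ ∈ V.nonunits := by
        rw [ValuationSubring.mem_nonunits_iff, map_inv₀]
        exact inv_lt_one_of_one_lt₀ (not_le.mp fun h => hn ((V.valuation_le_one_iff _).mp h))
      have hinv' : (σ.symm x)⁻¹ ∈ V := (V.valuation_le_one_iff _).mp (le_of_lt hinv)
      have h1 : V.valuation (σ ((σ.symm x)⁻¹)) < 1 := by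
        have := (hres _ hinv').2
        rw [show σ ((σ.symm x)⁻¹)
          = (σ ((σ.symm x)⁻¹) - (σ.symm x)⁻¹) + (σ.symm x)⁻¹ by ring]
        exact lt_of_le_of_lt (Valuation.map_add _ _ _) (max_lt this hinv)
      rw [map_inv₀, σ.apply_symm_apply, map_inv₀] at h1
      have hx1 := (V.valuation_le_one_iff x).mpr hx
      have : x ≠ 0 := fun e => hne (by simp [e])
      exact absurd h1 (not_lt.mpr ((one_le_inv₀ (by
        exact zero_lt_iff.mpr ((map_ne_zero _).mpr this))).mpr hx1))
  refine ⟨⟨σ, hσV⟩, ?_, rfl⟩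
  rw [SetLike.mem_coe, ValuationSubring.inertiaSubgroup, MonoidHom.mem_ker]
  ext r
  obtain ⟨a, rfl⟩ := IsLocalRing.residue_surjective r
  change (⟨σ, hσV⟩ : V.decompositionSubgroup ℚ) • IsLocalRing.residue V a = IsLocalRing.residue V a
  refine (IsLocalRing.ResidueField.residue_smul (V.decompositionSubgroup ℚ) _ a).symm.trans ?_
  refine Ideal.Quotient.eq.mpr ?_
  rw [ValuationSubring.valuation_lt_one_iff]
  exact (hres a a.2).2

theorem eq_top_of_inertia_le (L : IntermediateField ℚ QBar) [FiniteDimensional ℚ L]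
    (H : Subgroup GalQ) [H.Normal] (hLH : L.fixingSubgroup ≤ H)
    (hI : ∀ q : ℕ, q.Prime → ∀ V : ValuationSubring QBar, V.LiesOverPrime q →
      V.inertiaSubgroupIn ℚ ≤ H) : H = ⊤ := by
  classical
  have := isGalois_qbar
  have hopen : IsOpen (H : Set GalQ) :=
    Subgroup.isOpen_mono hLH L.fixingSubgroup_isOpen
  have hclosed : IsClosed (H : Set GalQ) := Subgroup.isClosed_of_isOpen H hopen
  set K := IntermediateField.fixedField H with hKdef
  have hKfix : K.fixingSubgroup = H :=
    InfiniteGalois.fixingSubgroup_fixedField (⟨H, hclosed⟩ : ClosedSubgroup GalQ)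
  have hKfin : FiniteDimensional ℚ K :=
    (InfiniteGalois.isOpen_iff_finite K).mp (by rw [hKfix]; exact hopen)
  have hKgal : IsGalois ℚ K :=
    (InfiniteGalois.normal_iff_isGalois K).mp (by rw [hKfix]; infer_instance)
  have : NumberField K := { to_finiteDimensional := hKfin }
  by_contra hHtop
  have hrank : Module.finrank ℚ K ≠ 1 := by
    intro h1
    rw [IntermediateField.finrank_eq_one_iff] at h1
    rw [h1, IntermediateField.fixingSubgroup_bot] at hKfix
    exact hHtop hKfix.symm
  obtain ⟨P, hPmax, hP⟩ := NumberField.exists_not_isUnramifiedAt_int (𝒪 := 𝓞 K) hrank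
  obtain ⟨q, hq, hqP⟩ : ∃ q : ℕ, q.Prime ∧ (q : 𝓞 K) ∈ P := by
    obtain ⟨q, hq : _ = Ideal.span _⟩ := IsPrincipalIdealRing.principal (P.under ℤ)
    have hq0 : q ≠ 0 := fun hq0 => Ideal.IsMaximal.ne_bot_of_isIntegral_int P
      (Ideal.eq_bot_of_comap_eq_bot (hq.trans (by simp [hq0])))
    have hqp : Prime q := by rw [← Ideal.span_singleton_prime hq0, ← hq]; infer_instance
    refine ⟨q.natAbs, Int.prime_iff_natAbs_prime.mp hqp, ?_⟩
    have hmem : q ∈ P.under ℤ := by rw [hq]; exact Ideal.mem_span_singleton_self q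
    rw [Ideal.mem_comap] at hmem
    have := P.mem_of_dvd (map_dvd (algebraMap ℤ (𝓞 K)) q.associated_natAbs.dvd) hmem
    simpa using this
  -- a nontrivial inertia element at finite level
  letI : MulSemiringAction Gal(K/ℚ) (𝓞 K) := IsIntegralClosure.MulSemiringAction ℤ ℚ K (𝓞 K)
  have := IsGaloisGroup.of_isFractionRing Gal(K/ℚ) ℤ (𝓞 K) ℚ K
  have hcard : Nat.card (P.inertia Gal(K/ℚ)) ≠ 1 := by
    rw [Ideal.card_inertia_eq_ramificationIdxIn (G := Gal(K/ℚ)) (P.under ℤ) P,
      Ideal.ramificationIdxIn_eq_ramificationIdx (P.under ℤ) P Gal(K/ℚ), Ne,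
      Ideal.ramificationIdx_eq_one_iff]
    exact hP
  obtain ⟨τ, hτ, hτ1⟩ : ∃ τ : Gal(K/ℚ), τ ∈ P.inertia Gal(K/ℚ) ∧ τ ≠ 1 := by
    by_contra hcon
    push Not at hcon
    exact hcard (by rw [(Subgroup.eq_bot_iff_forall _).mpr hcon]; exact Subgroup.card_bot)
  have hτsmul : ∀ a : 𝓞 K, ((τ • a : 𝓞 K) : K) = τ (a : K) := fun a =>
    algebraMap_galRestrict_apply ℤ τ a
  -- the tower `𝓞 K → ZBar`
  letI : Algebra (𝓞 K) ZBar := RingHom.toAlgebra
    { toFun := fun a => ⟨((a : K) : QBar),
        (NumberField.RingOfIntegers.isIntegral_coe a).map (K.val.restrictScalars ℤ)⟩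
      map_one' := Subtype.ext (by simp)
      map_mul' := fun a b => Subtype.ext (by simp)
      map_zero' := Subtype.ext (by simp)
      map_add' := fun a b => Subtype.ext (by simp) }
  have hcoe : ∀ a : 𝓞 K, ((algebraMap (𝓞 K) ZBar a : ZBar) : QBar) = ((a : K) : QBar) :=
    fun a => rfl
  have hinj : Function.Injective (algebraMap (𝓞 K) ZBar) := fun a b h => by
    have := congrArg Subtype.val h
    rw [hcoe, hcoe] at this
    exact NumberField.RingOfIntegers.coe_injective (Subtype.ext this)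
  have hint : Algebra.IsIntegral (𝓞 K) ZBar := by
    refine ⟨fun b => ?_⟩
    obtain ⟨g, hg, hgb⟩ := b.2
    refine ⟨g.map (algebraMap ℤ (𝓞 K)), hg.map _, ?_⟩
    rw [Polynomial.eval₂_map, RingHom.ext_int ((algebraMap (𝓞 K) ZBar).comp (algebraMap ℤ (𝓞 K)))
      (algebraMap ℤ ZBar)]
    apply Subtype.ext
    rw [← Polynomial.aeval_def, ← Subalgebra.coe_val, ← Polynomial.aeval_algHom_apply]
    simpa [Polynomial.aeval_def] using hgb
  obtain ⟨Q, hQprime, hQP⟩ := Ideal.exists_ideal_over_prime_of_isIntegral_of_isDomain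
    (S := ZBar) P (by rw [(RingHom.injective_iff_ker_eq_bot _).mp hinj]; exact bot_le)
  have hQlies : Q.LiesOver P := ⟨hQP.symm⟩
  obtain ⟨σ, hσ⟩ := AlgEquiv.restrictNormalHom_surjective (F := ℚ) (E := QBar) (K₁ := K) τ
  have hσK : ∀ x : K, σ (x : QBar) = (τ x : QBar) := fun x => by
    rw [← hσ]
    exact (AlgEquiv.restrictNormal_commutes σ K x).symm
  have hσA : ∀ a : 𝓞 K, σ • algebraMap (𝓞 K) ZBar a = algebraMap (𝓞 K) ZBar (τ • a) :=
    fun a => Subtype.ext (by
      show σ ((a : K) : QBar) = (((τ • a : 𝓞 K) : K) : QBar)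
      rw [hσK, hτsmul])
  have hσQ : (σ • Q).under (𝓞 K) = P := by
    ext a
    rw [Ideal.mem_comap, Ideal.mem_pointwise_smul_iff_inv_smul_mem]
    have e : σ⁻¹ • algebraMap (𝓞 K) ZBar a = algebraMap (𝓞 K) ZBar (τ⁻¹ • a) := by
      rw [inv_smul_eq_iff, hσA, smul_inv_smul]
    rw [e, ← Ideal.mem_comap, hQP]
    have h1 : τ⁻¹ • a - a ∈ P := inv_mem hτ a
    exact ⟨fun h => by simpa using sub_mem h h1, fun h => by simpa using add_mem h1 h⟩
  -- profinite setup
  letI : SMulCommClass H (𝓞 K) ZBar := by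
    refine ⟨fun h a b => ?_⟩
    rw [Algebra.smul_def, Algebra.smul_def, smul_mul']
    congr 1
    apply Subtype.ext
    exact (IntermediateField.mem_fixingSubgroup_iff K (h : GalQ)).mp (by rw [hKfix]; exact h.2)
      _ (a : K).2
  have : Algebra.IsInvariant (𝓞 K) ZBar H := by
    refine ⟨fun b hb => ?_⟩
    have hbK : (b : QBar) ∈ K := fun h => congrArg Subtype.val (hb h)
    refine ⟨⟨⟨(b : QBar), hbK⟩, ?_⟩, rfl⟩
    exact (isIntegral_algHom_iff (K.val.restrictScalars ℤ) Subtype.val_injective).mp b.2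
  letI : TopologicalSpace ZBar := ⊥
  haveI : DiscreteTopology ZBar := ⟨rfl⟩
  haveI : ContinuousSMul H ZBar := by
    rw [continuousSMul_iff_stabilizer_isOpen]
    intro b
    have h1 := stabilizer_isOpen_of_isIntegral (K := ℚ) (L := QBar) (b : QBar)
    have : (MulAction.stabilizer H b : Set H)
        = (fun h : H => (h : GalQ)) ⁻¹' (MulAction.stabilizer GalQ (b : QBar) : Set GalQ) := by
      ext h
      exact Subtype.ext_iff
    rw [this]
    exact h1.preimage continuous_subtype_val
  haveI : CompactSpace H := isCompact_iff_compactSpace.mp hclosed.isCompact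
  haveI : TotallyDisconnectedSpace GalQ := by
    haveI := krullTopology_isTotallySeparated (K := ℚ) (L := QBar)
    infer_instance
  haveI : (σ • Q).IsPrime := inferInstance
  obtain ⟨h, hh⟩ := Algebra.IsInvariant.exists_smul_of_under_eq_of_profinite (A := 𝓞 K) (G := H)
    (σ • Q) Q (by rw [hσQ]; exact hQP.symm)
  set g : GalQ := (h : GalQ) * σ with hg
  have hgQ : g • Q = Q := by rw [hg, mul_smul]; exact hh.symm
  have hgA : ∀ a : 𝓞 K, g • algebraMap (𝓞 K) ZBar a = algebraMap (𝓞 K) ZBar (τ • a) := fun a => by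
    rw [hg, mul_smul, hσA, Algebra.algebraMap_eq_smul_one]
    show h • ((τ • a) • (1 : ZBar)) = _
    rw [smul_comm, smul_one]
  let e : ZBar ≃+* ZBar := MulSemiringAction.toRingEquiv GalQ ZBar g
  let e₁ : (ZBar ⧸ Q) ≃+* (ZBar ⧸ Q) := Ideal.quotientEquiv Q Q e (by
    conv_lhs => rw [← hgQ]
    rfl)
  let ψ : (ZBar ⧸ Q) ≃ₐ[𝓞 K ⧸ P] (ZBar ⧸ Q) :=
    AlgEquiv.ofRingEquiv (f := e₁) (fun a => by
      obtain ⟨a, rfl⟩ := Ideal.Quotient.mk_surjective a
      show Ideal.Quotient.mk Q (g • algebraMap (𝓞 K) ZBar a)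
        = Ideal.Quotient.mk Q (algebraMap (𝓞 K) ZBar a)
      rw [Ideal.Quotient.mk_eq_mk_iff_sub_mem, hgA, ← map_sub, ← Ideal.mem_comap, hQP]
      exact hτ a)
  obtain ⟨k, hk⟩ := Ideal.Quotient.stabilizerHom_surjective_of_profinite P Q ψ (G := H)
  set ρ : GalQ := ((k : H) : GalQ)⁻¹ * g with hρdef
  have hkQ : ((k : H) : GalQ) • Q = Q := k.2
  have hρ : ∀ b : ZBar, ρ • b - b ∈ Q := by
    intro b
    have h1 : Ideal.Quotient.mk Q (((k : H) : GalQ) • b) = Ideal.Quotient.mk Q (g • b) := by
      have := DFunLike.congr_fun hk (Ideal.Quotient.mk Q b)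
      exact this
    rw [Ideal.Quotient.mk_eq_mk_iff_sub_mem] at h1
    have h2 : ((k : H) : GalQ)⁻¹ • (g • b - ((k : H) : GalQ) • b) ∈ Q := by
      rw [← neg_sub, smul_neg]
      refine neg_mem ?_
      rw [← Ideal.mem_pointwise_smul_iff_inv_smul_mem, hkQ]
      exact h1
    rwa [smul_sub, inv_smul_smul, ← mul_smul] at h2
  -- a valuation subring centred at Q
  obtain ⟨V, hV⟩ := Ideal.image_subset_nonunits_valuationSubring (K := QBar)
    (A := ZBar.toSubring) Q hQprime.ne_top
  have hVq : V.LiesOverPrime q := by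
    have hm : (q : ZBar) ∈ Q := by
      rw [← map_natCast (algebraMap (𝓞 K) ZBar), ← Ideal.mem_comap, hQP]; exact hqP
    have := hV.2 ⟨(q : ZBar), hm, rfl⟩
    simpa [ValuationSubring.LiesOverPrime] using this
  have hρI : ρ ∈ V.inertiaSubgroupIn ℚ :=
    mem_inertia_of_integral hq hVq (fun b => hV.2 ⟨_, hρ b, rfl⟩)
  have hgH : σ ∈ H := by
    have h1 : g ∈ H := by
      have := mul_mem (k : H).2 (hI q hq V hVq hρI)
      rwa [hρdef, mul_inv_cancel_left] at this
    simpa [hg] using mul_mem (inv_mem h.2) h1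
  rw [← hKfix] at hgH
  apply hτ1
  ext x
  have := (IntermediateField.mem_fixingSubgroup_iff K σ).mp hgH x x.2
  rw [hσK] at this
  exact congrArg Subtype.val (Subtype.ext this)

/-- A character of finite level of the absolute Galois group of `ℚ` unramified everywhere is
trivial. -/
theorem hom_eq_one_of_unramified {M : Type*} [Group M] (χ : GalQ →* M)
    (L : IntermediateField ℚ QBar) [FiniteDimensional ℚ L]
    (hL : ∀ σ ∈ L.fixingSubgroup, χ σ = 1)
    (hI : ∀ q : ℕ, q.Prime → ∀ V : ValuationSubring QBar, V.LiesOverPrime q →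
      ∀ σ ∈ V.inertiaSubgroupIn ℚ, χ σ = 1) (σ : GalQ) : χ σ = 1 := by
  have h := eq_top_of_inertia_le L χ.ker hL hI
  exact MonoidHom.mem_ker.mp (h ▸ Subgroup.mem_top σ)

end FLTAgent.Common
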